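import Fermat.Agent.S55.H173.ShapiroInj
import Fermat.Agent.S55.Spec.Tower

/-!
# S55 (helper173): Shapiro for the semilocal modules `J_q(F)` of the tower

`Hⁿ(Gal(F/ℚ), J_q(F)) ≅ Hⁿ(Gal(F_q/ℚ_q), F_qˣ)`, explicitly given by restriction along
`decHom` followed by evaluation at `1`.
-/

set_option autoImplicit false

open CategoryTheory groupCohomology

namespace Fermat.Agent.S55.H173

open Fermat.Agent.S55.Tow

variable {S : Finset Nat.Primes}

/-- The map `Gal(F_q/ℚ_q) → Gal(F/ℚ)` is injective. -/
theorem decHom_injective_H173 (L : Level S) (q : Nat.Primes) :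
    Function.Injective (L.decHom q) := by
  rw [injective_iff_map_eq_one]
  intro x hx
  induction x using QuotientGroup.induction_on with
  | H g =>
    change ((locQ q g : GQ) : GQ ⧸ L.U) = 1 at hx
    rw [QuotientGroup.eq_one_iff] at hx
    exact (QuotientGroup.eq_one_iff g).2 hx

/-- The Shapiro map for the semilocal module `J_q(F)`. -/
noncomputable abbrev shapiroJ (L : Level S) (q : Nat.Primes) (n : ℕ) :
    groupCohomology (L.J q) n ⟶ groupCohomology (L.locUnits q) n :=
  shapiroHom (L.decHom q) (L.locUnits q) n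

/-- **Shapiro for `J_q(F)`**: `Hⁿ(Gal(F/ℚ), J_q(F)) → Hⁿ(Gal(F_q/ℚ_q), F_qˣ)` is bijective. -/
theorem shapiroJ_bijective (L : Level S) (q : Nat.Primes) (n : ℕ) :
    Function.Bijective (shapiroJ L q n).hom :=
  shapiroHom_bijective (decHom_injective_H173 L q) n (L.locUnits q)

/-- The Shapiro isomorphism for `J_q(F)`. -/
noncomputable def shapiroJIso (L : Level S) (q : Nat.Primes) (n : ℕ) :
    groupCohomology (L.J q) n ≅ groupCohomology (L.locUnits q) n :=
  shapiroIsoInj (decHom_injective_H173 L q) (L.locUnits q) n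

end Fermat.Agent.S55.H173
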