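import Fermat.Agent.S55.H173.ShapiroExplicit

/-!
# S55 (helper173): explicit Shapiro lemma along an injective group homomorphism

For an injective `φ : D →* G` and `B : Rep k D`, the map
`Hⁿ(G, Coind_φ B) ⟶ Hⁿ(D, B)` induced by `φ` and evaluation at `1`
is an isomorphism for all `n`.  This is the form needed for
`Tow.Level.J L q = Rep.coind (L.decHom q) (L.locUnits q)`.
-/

set_option autoImplicit false

open CategoryTheory CategoryTheory.Limits groupCohomology

namespace Fermat.Agent.S55.H173

universe u

variable {k G D : Type u} [CommRing k] [Group G] [Group D] (φ : D →* G)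

/-- Evaluation at `1`: `Res_φ Coind_φ B ⟶ B`. -/
def ev1Hom (B : Rep k D) : Rep.res φ (Rep.coind φ B) ⟶ B :=
  Rep.ofHom (ρ := (Representation.coind φ B.ρ).comp φ) (σ := B.ρ)
    ⟨{ toFun := fun f => f.1 1
       map_add' := fun _ _ => rfl
       map_smul' := fun _ _ => rfl }, fun s => by
      ext f
      have h := f.2 s 1
      change f.1 (1 * φ s) = B.ρ s (f.1 1)
      rw [one_mul]
      simpa using h⟩

@[simp]
lemma ev1Hom_hom_apply (B : Rep k D) (f : (Rep.coind φ B).V) :
    (ev1Hom φ B).hom f = f.1 1 := rfl

/-- The explicit Shapiro map along `φ`. -/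
noncomputable abbrev shapiroHom (B : Rep k D) (n : ℕ) :
    groupCohomology (Rep.coind φ B) n ⟶ groupCohomology B n :=
  groupCohomology.map φ (ev1Hom φ B) n

variable {φ} (hφ : Function.Injective φ)

/-- `B` as a representation of the range of `φ`. -/
noncomputable abbrev rangeRep (B : Rep k D) : Rep k φ.range :=
  Rep.res ((MonoidHom.ofInjective hφ).symm : φ.range →* D) B

/-- `Coind_φ B ≅ Coind_{φ(D)}^G B`. -/
noncomputable def coindRangeIso (B : Rep k D) :
    Rep.coind φ B ≅ Rep.coind φ.range.subtype (rangeRep hφ B) :=
  Rep.mkIso (ρ := Representation.coind φ B.ρ)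
    (σ := Representation.coind φ.range.subtype (rangeRep hφ B).ρ)
    { toLinearEquiv :=
        { toFun := fun f => ⟨f.1, fun r g => by
            have h := f.2 ((MonoidHom.ofInjective hφ).symm r) g
            rw [MonoidHom.apply_ofInjective_symm hφ r] at h
            exact h⟩
          invFun := fun f => ⟨f.1, fun d g => by
            have h := f.2 (MonoidHom.ofInjective hφ d) g
            have h2 : (rangeRep hφ B).ρ (MonoidHom.ofInjective hφ d) = B.ρ d := by
              change B.ρ ((MonoidHom.ofInjective hφ).symm (MonoidHom.ofInjective hφ d)) = B.ρ d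
              rw [MulEquiv.symm_apply_apply]
            rw [h2] at h
            exact h⟩
          map_add' := fun _ _ => rfl
          map_smul' := fun _ _ => rfl
          left_inv := fun _ => rfl
          right_inv := fun _ => rfl }
      isIntertwining' := fun g => by
        ext F x
        rfl }

/-- The comparison `Res_e (rangeRep B) ⟶ B` (identity on the underlying module). -/
noncomputable def rangeRepHom (B : Rep k D) :
    Rep.res ((MonoidHom.ofInjective hφ : D ≃* φ.range) : D →* φ.range) (rangeRep hφ B) ⟶ B :=
  Rep.ofHom (ρ := ((rangeRep hφ B).ρ).comp ((MonoidHom.ofInjective hφ : D ≃* φ.range) : D →* φ.range))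
    (σ := B.ρ)
    ⟨LinearMap.id, fun d => by
      ext b
      change B.ρ ((MonoidHom.ofInjective hφ).symm (MonoidHom.ofInjective hφ d)) b = B.ρ d b
      rw [MulEquiv.symm_apply_apply]⟩

/-- Factorisation of the Shapiro map along `φ` through the Shapiro map of the subgroup
`φ(D) ≤ G`. -/
lemma shapiroHom_eq (B : Rep k D) (n : ℕ) :
    shapiroHom φ B n =
      groupCohomology.map (MonoidHom.id G) (coindRangeIso hφ B).hom n ≫
        (shapiroMap φ.range (rangeRep hφ B) n ≫
          groupCohomology.map ((MonoidHom.ofInjective hφ : D ≃* φ.range) : D →* φ.range)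
            (rangeRepHom hφ B) n) := by
  rw [← groupCohomology.map_comp, ← groupCohomology.map_comp]
  exact map_congr (by ext d; rfl) (by rfl) n

lemma rangeRepHom_map_bijective (B : Rep k D) (n : ℕ) :
    Function.Bijective (groupCohomology.map
      ((MonoidHom.ofInjective hφ : D ≃* φ.range) : D →* φ.range) (rangeRepHom hφ B) n).hom := by
  let e : φ.range ≃* D := (MonoidHom.ofInjective hφ).symm
  let I := groupCohomology.mapIso (A := B) (B := rangeRep hφ B) e
    (LinearEquiv.refl k B.V) (fun g => rfl) n
  have hI : groupCohomology.map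
      ((MonoidHom.ofInjective hφ : D ≃* φ.range) : D →* φ.range) (rangeRepHom hφ B) n = I.hom :=
    map_congr (by ext d; rfl) (by rfl) n
  rw [hI]
  exact (ConcreteCategory.isIso_iff_bijective _).1 inferInstance

/-- **Explicit Shapiro lemma along an injective homomorphism** `φ : D →* G`:
restriction along `φ` followed by evaluation at `1` is bijective
`Hⁿ(G, Coind_φ B) → Hⁿ(D, B)` for all `n`. -/
theorem shapiroHom_bijective {φ : D →* G} (hφ : Function.Injective φ) (n : ℕ) (B : Rep k D) :
    Function.Bijective (shapiroHom φ B n).hom := by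
  rw [shapiroHom_eq hφ B n]
  have h0 : IsIso ((groupCohomology.functor k G n).map (coindRangeIso hφ B).hom) :=
    inferInstance
  have h1 : Function.Bijective
      ((groupCohomology.functor k G n).map (coindRangeIso hφ B).hom).hom :=
    (ConcreteCategory.isIso_iff_bijective _).1 h0
  have h2 := shapiroMap_bijective φ.range n (rangeRep hφ B)
  have h3 := rangeRepHom_map_bijective hφ B n
  exact (h3.comp h2).comp h1

/-- The explicit Shapiro map along an injective homomorphism is an isomorphism. -/
theorem isIso_shapiroHom {φ : D →* G} (hφ : Function.Injective φ) (B : Rep k D) (n : ℕ) :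
    IsIso (shapiroHom φ B n) :=
  (ConcreteCategory.isIso_iff_bijective _).2 (shapiroHom_bijective hφ n B)

/-- The Shapiro isomorphism `Hⁿ(G, Coind_φ B) ≅ Hⁿ(D, B)` with explicit `hom`. -/
noncomputable def shapiroIsoInj {φ : D →* G} (hφ : Function.Injective φ) (B : Rep k D) (n : ℕ) :
    groupCohomology (Rep.coind φ B) n ≅ groupCohomology B n :=
  haveI := isIso_shapiroHom hφ B n
  asIso (shapiroHom φ B n)

@[simp]
lemma shapiroIsoInj_hom {φ : D →* G} (hφ : Function.Injective φ) (B : Rep k D) (n : ℕ) :
    (shapiroIsoInj hφ B n).hom = shapiroHom φ B n := rfl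

/-- Naturality of the Shapiro map in the coefficient module. -/
lemma shapiroHom_naturality (φ : D →* G) {B B' : Rep k D} (f : B ⟶ B') (n : ℕ) :
    groupCohomology.map (MonoidHom.id G) (Rep.coindMap φ f) n ≫ shapiroHom φ B' n =
      shapiroHom φ B n ≫ groupCohomology.map (MonoidHom.id D) f n := by
  rw [← groupCohomology.map_comp, ← groupCohomology.map_comp]
  exact map_congr (by ext d; rfl) (by rfl) n

end Fermat.Agent.S55.H173
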