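import Fermat.Agent.S55.H173.ShapiroExplicit

/-!
# S55 (helper173): Mackey decomposition of the cohomology of a coinduced module

`D, H ≤ G`, `A : Rep k D`.  For `s : G` put `H_s = H ∩ s⁻¹ D s` (`conjSub D H s`, a subgroup of
`H`) and let `A^s` (`twist D H A s`) be `A` with `H_s` acting through `h ↦ s h s⁻¹ ∈ D`.
Evaluation at `s` is an `H_s`-map `Coind_D^G A → A^s`.  If `s i` runs through representatives of
the double cosets `D \ G / H`, then
`Hⁿ(H, Coind_D^G A) → ∏ i, Hⁿ(H_{s i}, A^{s i})`  (restriction + evaluation) is bijective.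
-/

set_option autoImplicit false

open CategoryTheory CategoryTheory.Limits groupCohomology

namespace Fermat.Agent.S55.H173

universe u

variable {k G : Type u} [CommRing k] [Group G] (D H : Subgroup G)

/-- `H ∩ s⁻¹ D s`, as a subgroup of `H`. -/
def conjSub (s : G) : Subgroup H where
  carrier := {h | s * (h : G) * s⁻¹ ∈ D}
  one_mem' := by simp [D.one_mem]
  mul_mem' := fun {a b} ha hb => by
    have h1 : s * ((a * b : H) : G) * s⁻¹ = (s * (a : G) * s⁻¹) * (s * (b : G) * s⁻¹) := by
      simp only [Subgroup.coe_mul]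
      group
    change s * ((a * b : H) : G) * s⁻¹ ∈ D
    rw [h1]
    exact D.mul_mem ha hb
  inv_mem' := fun {a} ha => by
    have h1 : s * ((a⁻¹ : H) : G) * s⁻¹ = (s * (a : G) * s⁻¹)⁻¹ := by
      simp only [Subgroup.coe_inv]
      group
    change s * ((a⁻¹ : H) : G) * s⁻¹ ∈ D
    rw [h1]
    exact D.inv_mem ha

lemma mem_conjSub {s : G} {h : H} : h ∈ conjSub D H s ↔ s * (h : G) * s⁻¹ ∈ D := Iff.rfl

/-- Conjugation by `s`: `H ∩ s⁻¹ D s → D`. -/
def conjHom (s : G) : conjSub D H s →* D where
  toFun h := ⟨s * ((h : H) : G) * s⁻¹, h.2⟩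
  map_one' := by
    apply Subtype.ext
    simp
  map_mul' a b := by
    apply Subtype.ext
    simp only [Subgroup.coe_mul]
    group

@[simp]
lemma conjHom_coe (s : G) (h : conjSub D H s) :
    ((conjHom D H s h : D) : G) = s * ((h : H) : G) * s⁻¹ := rfl

variable (A : Rep.{u} k D)

/-- The module `A` with `H ∩ s⁻¹ D s` acting through conjugation by `s`. -/
noncomputable abbrev twist (s : G) : Rep k (conjSub D H s) := Rep.res (conjHom D H s) A

/-- The `H`-module `Res_H Coind_D^G A`. -/
noncomputable abbrev resCoind : Rep k H := Rep.res H.subtype (Rep.coind D.subtype A)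

/-- Evaluation at `s`, an `H ∩ s⁻¹ D s`-equivariant map `Coind_D^G A → A^s`. -/
def evAt (s : G) : Rep.res (conjSub D H s).subtype (resCoind D H A) ⟶ twist D H A s :=
  Rep.ofHom
    (ρ := ((Representation.coind D.subtype A.ρ).comp H.subtype).comp (conjSub D H s).subtype)
    (σ := A.ρ.comp (conjHom D H s))
    ⟨{ toFun := fun f => f.1 s
       map_add' := fun _ _ => rfl
       map_smul' := fun _ _ => rfl }, fun h => by
      ext f
      have h1 := f.2 (conjHom D H s h) s
      change f.1 (s * ((h : H) : G)) = A.ρ (conjHom D H s h) (f.1 s)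
      rw [← h1]
      simp⟩

@[simp]
lemma evAt_hom_apply (s : G) (f : (Rep.coind D.subtype A).V) :
    (evAt D H A s).hom f = f.1 s := rfl

/-- The Mackey component map `Hⁿ(H, Coind_D^G A) ⟶ Hⁿ(H ∩ s⁻¹ D s, A^s)`:
restriction followed by evaluation at `s`. -/
noncomputable abbrev mackeyMap (s : G) (n : ℕ) :
    groupCohomology (resCoind D H A) n ⟶ groupCohomology (twist D H A s) n :=
  groupCohomology.map (conjSub D H s).subtype (evAt D H A s) n

/-! ### The components `Coind_{H_s}^H A^s` and the projections -/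

/-- The `s`-component of the Mackey decomposition. -/
noncomputable abbrev mackeyComp (s : G) : Rep k H :=
  Rep.coind (conjSub D H s).subtype (twist D H A s)

/-- The projection of `Res_H Coind_D^G A` onto its `s`-component: `f ↦ (h ↦ f (s h))`. -/
def mackeyProj (s : G) : resCoind D H A ⟶ mackeyComp D H A s :=
  Rep.ofHom
    (ρ := (Representation.coind D.subtype A.ρ).comp H.subtype)
    (σ := Representation.coind (conjSub D H s).subtype (A.ρ.comp (conjHom D H s)))
    ⟨{ toFun := fun f => ⟨fun h => f.1 (s * (h : G)), fun t h => by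
          have h1 := f.2 (conjHom D H s t) (s * (h : G))
          change f.1 (s * (((t : H) * h : H) : G)) = A.ρ (conjHom D H s t) (f.1 (s * (h : G)))
          rw [← h1]
          simp only [Subgroup.coe_mul, Subgroup.subtype_apply, conjHom_coe]
          group⟩
       map_add' := fun _ _ => rfl
       map_smul' := fun _ _ => rfl }, fun h₀ => by
      ext f h
      change f.1 (s * (h : G) * (h₀ : G)) = f.1 (s * ((h * h₀ : H) : G))
      simp [mul_assoc]⟩

@[simp]
lemma mackeyProj_hom_apply (s : G) (f : (Rep.coind D.subtype A).V) (h : H) :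
    ((mackeyProj D H A s).hom f).1 h = f.1 (s * (h : G)) := rfl

/-- `ev_1 ∘ π_s = ev_s`. -/
lemma mackeyProj_comp_ev1 (s : G) :
    (Rep.resFunctor (conjSub D H s).subtype).map (mackeyProj D H A s) ≫
      ev1 (conjSub D H s) (twist D H A s) = evAt D H A s := by
  ext f
  change f.1 (s * ((1 : H) : G)) = f.1 s
  simp

/-- The Mackey map factors through the projection and the explicit Shapiro map. -/
lemma mackeyMap_eq (s : G) (n : ℕ) :
    mackeyMap D H A s n =
      groupCohomology.map (MonoidHom.id H) (mackeyProj D H A s) n ≫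
        shapiroMap (conjSub D H s) (twist D H A s) n := by
  rw [shapiroMap, ← groupCohomology.map_comp]
  exact groupCohomology.map_congr rfl (by rw [mackeyProj_comp_ev1]) n

/-! ### The inclusions of the components -/

/-- `x` lies in the double coset `D s H`. -/
def InDoset (s x : G) : Prop := ∃ p : D × H, x = (p.1 : G) * s * (p.2 : G)

variable {D H}

lemma inDoset_mul_left {s x : G} (d : D) : InDoset D H s ((d : G) * x) ↔ InDoset D H s x := by
  constructor
  · rintro ⟨⟨d', h⟩, hx⟩
    refine ⟨⟨d⁻¹ * d', h⟩, ?_⟩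
    simp only [Subgroup.coe_mul, Subgroup.coe_inv]
    simp only at hx
    rw [mul_assoc, mul_assoc, ← mul_assoc (d' : G), ← hx]
    group
  · rintro ⟨⟨d', h⟩, hx⟩
    refine ⟨⟨d * d', h⟩, ?_⟩
    simp only [Subgroup.coe_mul]
    simp only at hx
    rw [hx]
    group

lemma inDoset_mul_right {s x : G} (h₀ : H) : InDoset D H s (x * (h₀ : G)) ↔ InDoset D H s x := by
  constructor
  · rintro ⟨⟨d', h⟩, hx⟩
    refine ⟨⟨d', h * h₀⁻¹⟩, ?_⟩
    simp only [Subgroup.coe_mul, Subgroup.coe_inv]
    simp only at hx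
    rw [← mul_assoc, ← hx]
    group
  · rintro ⟨⟨d', h⟩, hx⟩
    refine ⟨⟨d', h * h₀⟩, ?_⟩
    simp only [Subgroup.coe_mul]
    simp only at hx
    rw [hx]
    group

variable {A}

/-- Well-definedness of the extension of a function on `H` to the double coset `D s H`. -/
lemma mackey_wd {s : G} (φ : (mackeyComp D H A s).V) {d₁ d₂ : D} {h₁ h₂ : H}
    (h : (d₁ : G) * s * (h₁ : G) = (d₂ : G) * s * (h₂ : G)) :
    A.ρ d₁ (φ.1 h₁) = A.ρ d₂ (φ.1 h₂) := by
  have hmem : s * ((h₂ * h₁⁻¹ : H) : G) * s⁻¹ ∈ D := by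
    have h3 : s * ((h₂ * h₁⁻¹ : H) : G) * s⁻¹ = ((d₂⁻¹ * d₁ : D) : G) := by
      simp only [Subgroup.coe_mul, Subgroup.coe_inv]
      have h4 : s * (h₂ : G) = (d₂ : G)⁻¹ * ((d₁ : G) * s * (h₁ : G)) := by
        rw [h]; group
      calc s * ((h₂ : G) * (h₁ : G)⁻¹) * s⁻¹
          = (s * (h₂ : G)) * (h₁ : G)⁻¹ * s⁻¹ := by group
        _ = ((d₂ : G)⁻¹ * ((d₁ : G) * s * (h₁ : G))) * (h₁ : G)⁻¹ * s⁻¹ := by rw [h4]
        _ = (d₂ : G)⁻¹ * (d₁ : G) := by group
    rw [h3]
    exact (d₂⁻¹ * d₁).2
  let t : conjSub D H s := ⟨h₂ * h₁⁻¹, hmem⟩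
  have ht : conjHom D H s t = d₂⁻¹ * d₁ := by
    apply Subtype.ext
    simp only [conjHom_coe, Subgroup.coe_mul, Subgroup.coe_inv, t]
    have h4 : s * (h₂ : G) = (d₂ : G)⁻¹ * ((d₁ : G) * s * (h₁ : G)) := by
      rw [h]; group
    calc s * ((h₂ : G) * (h₁ : G)⁻¹) * s⁻¹
        = (s * (h₂ : G)) * (h₁ : G)⁻¹ * s⁻¹ := by group
      _ = ((d₂ : G)⁻¹ * ((d₁ : G) * s * (h₁ : G))) * (h₁ : G)⁻¹ * s⁻¹ := by rw [h4]
      _ = (d₂ : G)⁻¹ * (d₁ : G) := by group
  have h5 := φ.2 t h₁
  have h6 : ((conjSub D H s).subtype t) * h₁ = h₂ := by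
    simp [t]
  rw [h6] at h5
  rw [h5]
  change A.ρ d₁ (φ.1 h₁) = A.ρ d₂ (A.ρ (conjHom D H s t) (φ.1 h₁))
  rw [ht, ← Module.End.mul_apply, ← map_mul]
  simp

open Classical in
/-- Extension by zero of a function on `H` to `G`, supported on the double coset `D s H`. -/
noncomputable def mackeyExtFun (s : G) (φ : (mackeyComp D H A s).V) : G → A.V :=
  fun x => if hx : InDoset D H s x then A.ρ hx.choose.1 (φ.1 hx.choose.2) else 0

lemma mackeyExtFun_of_eq (s : G) (φ : (mackeyComp D H A s).V) {x : G} (d : D) (h : H)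
    (hx : x = (d : G) * s * (h : G)) : mackeyExtFun s φ x = A.ρ d (φ.1 h) := by
  have hin : InDoset D H s x := ⟨⟨d, h⟩, hx⟩
  rw [mackeyExtFun, dif_pos hin]
  exact mackey_wd φ (hin.choose_spec.symm.trans hx)

lemma mackeyExtFun_of_not (s : G) (φ : (mackeyComp D H A s).V) {x : G}
    (hx : ¬ InDoset D H s x) : mackeyExtFun s φ x = 0 := by
  rw [mackeyExtFun, dif_neg hx]

lemma mackeyExtFun_mem (s : G) (φ : (mackeyComp D H A s).V) :
    mackeyExtFun s φ ∈ Representation.coindV D.subtype A.ρ := by
  intro d x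
  by_cases hx : InDoset D H s x
  · obtain ⟨⟨d', h⟩, hx'⟩ := hx
    have h1 : D.subtype d * x = ((d * d' : D) : G) * s * (h : G) := by
      simp only [Subgroup.subtype_apply, Subgroup.coe_mul]
      rw [hx']
      group
    rw [mackeyExtFun_of_eq s φ (d * d') h h1, mackeyExtFun_of_eq s φ d' h hx', map_mul]
    rfl
  · have hx2 : ¬ InDoset D H s (D.subtype d * x) := fun h => hx ((inDoset_mul_left d).1 h)
    rw [mackeyExtFun_of_not s φ hx, mackeyExtFun_of_not s φ hx2, map_zero]

variable (D H A)

/-- The inclusion of the `s`-component into `Res_H Coind_D^G A` (extension by zero). -/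
noncomputable def mackeyIncl (s : G) : mackeyComp D H A s ⟶ resCoind D H A :=
  Rep.ofHom
    (ρ := Representation.coind (conjSub D H s).subtype (A.ρ.comp (conjHom D H s)))
    (σ := (Representation.coind D.subtype A.ρ).comp H.subtype)
    ⟨{ toFun := fun φ => ⟨mackeyExtFun s φ, mackeyExtFun_mem s φ⟩
       map_add' := fun φ ψ => by
        apply Subtype.ext
        funext x
        by_cases hx : InDoset D H s x
        · obtain ⟨⟨d, h⟩, hx'⟩ := hx
          change mackeyExtFun s (φ + ψ) x = mackeyExtFun s φ x + mackeyExtFun s ψ x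
          rw [mackeyExtFun_of_eq s _ d h hx', mackeyExtFun_of_eq s _ d h hx',
            mackeyExtFun_of_eq s _ d h hx', ← map_add]
          rfl
        · change mackeyExtFun s (φ + ψ) x = mackeyExtFun s φ x + mackeyExtFun s ψ x
          rw [mackeyExtFun_of_not s _ hx, mackeyExtFun_of_not s _ hx,
            mackeyExtFun_of_not s _ hx, add_zero]
       map_smul' := fun c φ => by
        apply Subtype.ext
        funext x
        by_cases hx : InDoset D H s x
        · obtain ⟨⟨d, h⟩, hx'⟩ := hx
          change mackeyExtFun s (c • φ) x = c • mackeyExtFun s φ x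
          rw [mackeyExtFun_of_eq s _ d h hx', mackeyExtFun_of_eq s _ d h hx', ← map_smul]
          rfl
        · change mackeyExtFun s (c • φ) x = c • mackeyExtFun s φ x
          rw [mackeyExtFun_of_not s _ hx, mackeyExtFun_of_not s _ hx, smul_zero] },
     fun h₀ => by
      ext φ x
      change mackeyExtFun s
          ((Representation.coind (conjSub D H s).subtype (A.ρ.comp (conjHom D H s))) h₀ φ) x =
        mackeyExtFun s φ (x * (h₀ : G))
      by_cases hx : InDoset D H s x
      · obtain ⟨⟨d, h⟩, hx'⟩ := hx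
        have h1 : x * (h₀ : G) = (d : G) * s * ((h * h₀ : H) : G) := by
          simp only [Subgroup.coe_mul]
          rw [hx']
          group
        rw [mackeyExtFun_of_eq s _ d h hx', mackeyExtFun_of_eq s _ d (h * h₀) h1]
        rfl
      · have hx2 : ¬ InDoset D H s (x * (h₀ : G)) := fun h => hx ((inDoset_mul_right h₀).1 h)
        rw [mackeyExtFun_of_not s _ hx, mackeyExtFun_of_not s _ hx2]⟩

lemma mackeyIncl_hom_apply (s : G) (φ : (mackeyComp D H A s).V) (x : G) :
    ((mackeyIncl D H A s).hom φ).1 x = mackeyExtFun s φ x := rfl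

/-! ### Biproduct relations -/

lemma mackeyIncl_comp_mackeyProj (s : G) :
    mackeyIncl D H A s ≫ mackeyProj D H A s = 𝟙 _ := by
  ext φ h
  change mackeyExtFun s φ (s * (h : G)) = φ.1 h
  have h1 : s * (h : G) = ((1 : D) : G) * s * (h : G) := by simp
  rw [mackeyExtFun_of_eq s φ 1 h h1]
  simp

lemma mackeyIncl_comp_mackeyProj_of_not (s t : G) (hst : ¬ InDoset D H s t) :
    mackeyIncl D H A s ≫ mackeyProj D H A t = 0 := by
  ext φ h
  change mackeyExtFun s φ (t * (h : G)) = 0
  exact mackeyExtFun_of_not s φ (fun hx => hst ((inDoset_mul_right h).1 hx))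

lemma sum_mackeyProj_comp_mackeyIncl {ι : Type*} [Fintype ι] (s : ι → G)
    (hs : ∀ x : G, ∃! i, InDoset D H (s i) x) :
    ∑ i, mackeyProj D H A (s i) ≫ mackeyIncl D H A (s i) = 𝟙 (resCoind D H A) := by
  ext f x
  rw [Rep.sum_hom, Representation.IntertwiningMap.toLinearMap_sum, LinearMap.sum_apply]
  change (∑ i, ((mackeyProj D H A (s i) ≫ mackeyIncl D H A (s i)).hom f)).1 x = f.1 x
  rw [AddSubmonoidClass.coe_finsetSum, Finset.sum_apply]
  obtain ⟨i₀, hi₀, huniq⟩ := hs x
  rw [Finset.sum_eq_single i₀]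
  · obtain ⟨⟨d, h⟩, hx⟩ := hi₀
    change mackeyExtFun (s i₀) ((mackeyProj D H A (s i₀)).hom f) x = f.1 x
    rw [mackeyExtFun_of_eq (s i₀) _ d h hx]
    change A.ρ d (f.1 (s i₀ * (h : G))) = f.1 x
    rw [← f.2 d (s i₀ * (h : G)), hx]
    simp [mul_assoc]
  · intro i _ hi
    change mackeyExtFun (s i) ((mackeyProj D H A (s i)).hom f) x = 0
    exact mackeyExtFun_of_not (s i) _ (fun hx => hi (huniq i hx))
  · intro h
    exact absurd (Finset.mem_univ i₀) h

/-! ### Cohomology -/

instance functor_additive_H173 (n : ℕ) : (groupCohomology.functor k H n).Additive where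
  map_add {X Y} f g := by
    change HomologicalComplex.homologyMap ((cochainsFunctor k H).map (f + g)) n = _
    rw [Functor.map_add, HomologicalComplex.homologyMap_add]
    rfl

/-- **Mackey decomposition in cohomology.**  If `s i` runs through representatives of the double
cosets `D \ G / H`, then restriction followed by evaluation at the `s i` is a bijection
`Hⁿ(H, Coind_D^G A) → ∏ i, Hⁿ(H ∩ (s i)⁻¹ D (s i), A^{s i})`. -/
theorem mackey_bijective {ι : Type*} [Fintype ι] (s : ι → G)
    (hs : ∀ x : G, ∃! i, InDoset D H (s i) x) (n : ℕ) :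
    Function.Bijective
      (fun (x : groupCohomology (resCoind D H A) n) (i : ι) =>
        (mackeyMap D H A (s i) n).hom x) := by
  classical
  let F := groupCohomology.functor k H n
  have hne : ∀ i t : ι, i ≠ t → ¬ InDoset D H (s i) (s t) := by
    intro i t hit hin
    obtain ⟨j, _, huniq⟩ := hs (s t)
    have h1 : i = j := huniq i hin
    have h2 : t = j := huniq t ⟨⟨1, 1⟩, by simp⟩
    exact hit (h1.trans h2.symm)
  have hR1 : ∀ i, F.map (mackeyIncl D H A (s i)) ≫ F.map (mackeyProj D H A (s i)) = 𝟙 _ := by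
    intro i
    rw [← F.map_comp, mackeyIncl_comp_mackeyProj, F.map_id]
  have hR2 : ∀ i t, i ≠ t →
      F.map (mackeyIncl D H A (s i)) ≫ F.map (mackeyProj D H A (s t)) = 0 := by
    intro i t hit
    rw [← F.map_comp, mackeyIncl_comp_mackeyProj_of_not D H A (s i) (s t) (hne i t hit),
      F.map_zero]
  have hR3 : ∑ i, F.map (mackeyProj D H A (s i)) ≫ F.map (mackeyIncl D H A (s i)) = 𝟙 _ := by
    have h := congrArg F.map (sum_mackeyProj_comp_mackeyIncl D H A s hs)
    rw [Functor.map_sum, F.map_id] at h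
    simpa [Functor.map_comp] using h
  have hmap : ∀ i x, (mackeyMap D H A (s i) n).hom x =
      (shapiroMap (conjSub D H (s i)) (twist D H A (s i)) n).hom
        ((F.map (mackeyProj D H A (s i))).hom x) := by
    intro i x
    rw [mackeyMap_eq]
    rfl
  constructor
  · intro x y hxy
    have hp : ∀ i, (F.map (mackeyProj D H A (s i))).hom x =
        (F.map (mackeyProj D H A (s i))).hom y := by
      intro i
      apply (shapiroMap_bijective (conjSub D H (s i)) n (twist D H A (s i))).1
      rw [← hmap, ← hmap]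
      exact congrFun hxy i
    have hsum : ∀ w : groupCohomology (resCoind D H A) n,
        ∑ i, (F.map (mackeyIncl D H A (s i))).hom
          ((F.map (mackeyProj D H A (s i))).hom w) = w := by
      intro w
      have hw := congrArg (fun ψ => ψ.hom w) hR3
      simp only [ModuleCat.hom_sum, ModuleCat.hom_comp, ModuleCat.hom_id] at hw
      erw [LinearMap.sum_apply] at hw
      exact hw
    have hmid : ∑ i, (F.map (mackeyIncl D H A (s i))).hom
          ((F.map (mackeyProj D H A (s i))).hom x) =
        ∑ i, (F.map (mackeyIncl D H A (s i))).hom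
          ((F.map (mackeyProj D H A (s i))).hom y) :=
      Finset.sum_congr rfl (fun i _ => by rw [hp i])
    exact (hsum x).symm.trans (hmid.trans (hsum y))
  · intro y
    choose z hz using fun i =>
      (shapiroMap_bijective (conjSub D H (s i)) n (twist D H A (s i))).2 (y i)
    refine ⟨∑ i, (F.map (mackeyIncl D H A (s i))).hom (z i), ?_⟩
    funext t
    change (mackeyMap D H A (s t) n).hom
      (∑ i, (F.map (mackeyIncl D H A (s i))).hom (z i)) = y t
    have hproj : (F.map (mackeyProj D H A (s t))).hom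
        (∑ i, (F.map (mackeyIncl D H A (s i))).hom (z i)) = z t := by
      rw [map_sum, Finset.sum_eq_single t]
      · have h1 := congrArg (fun ψ => ψ.hom (z t)) (hR1 t)
        exact h1
      · intro i _ hit
        have h1 := congrArg (fun ψ => ψ.hom (z i)) (hR2 i t hit)
        exact h1
      · intro h
        exact absurd (Finset.mem_univ t) h
    rw [hmap]
    erw [hproj]
    exact hz t

end Fermat.Agent.S55.H173
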