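import Fermat.Agent.S55.H783.Natural
import Fermat.Agent.S55.H783.ResCor

/-!
# S55 (helper173): explicit Shapiro lemma

For a subgroup `S ≤ G` and `B : Rep k S`, the map
`Hⁿ(G, Coind_S^G B) ⟶ Hⁿ(S, B)` induced by `S ↪ G` and evaluation at `1`
is an isomorphism for all `n`.  (Mathlib's `groupCohomology.coindIso` is abstract.)
-/

set_option autoImplicit false

open CategoryTheory CategoryTheory.Limits groupCohomology

namespace Fermat.Agent.S55.H173

open Fermat.Agent.S55.H783

universe u

variable {k G : Type u} [CommRing k] [Group G] (S : Subgroup G)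

/-- Evaluation at `1`: `Res_S Coind_S^G B ⟶ B`. -/
def ev1 (B : Rep k S) : Rep.res S.subtype (Rep.coind S.subtype B) ⟶ B :=
  Rep.ofHom (ρ := (Representation.coind S.subtype B.ρ).comp S.subtype) (σ := B.ρ)
    ⟨{ toFun := fun f => f.1 1
       map_add' := fun _ _ => rfl
       map_smul' := fun _ _ => rfl }, fun s => by
      ext f
      have h := f.2 s 1
      change f.1 (1 * (s : G)) = B.ρ s (f.1 1)
      rw [one_mul]
      simpa using h⟩

@[simp]
lemma ev1_hom_apply (B : Rep k S) (f : (Rep.coind S.subtype B).V) :
    (ev1 S B).hom f = f.1 1 := rfl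

/-- The explicit Shapiro map. -/
noncomputable abbrev shapiroMap (B : Rep k S) (n : ℕ) :
    groupCohomology (Rep.coind S.subtype B) n ⟶ groupCohomology B n :=
  groupCohomology.map S.subtype (ev1 S B) n

/-! ### Degree `0` -/

lemma H0Iso_hom_shapiroMap_val (B : Rep k S) (x : groupCohomology (Rep.coind S.subtype B) 0) :
    ((H0Iso B).hom ((shapiroMap S B 0).hom x)).1 =
      (((H0Iso (Rep.coind S.subtype B)).hom x).1).1 1 := by
  have h := map_H0Iso_hom_f_apply (f := S.subtype) (φ := ev1 S B) x
  exact h

lemma invariant_coind_apply (B : Rep k S)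
    (f : (Rep.coind S.subtype B).ρ.invariants) (g : G) : (f.1).1 g = (f.1).1 1 := by
  have h := f.2 g
  have h2 := congrArg (fun F : (Rep.coind S.subtype B).V => F.1 1) h
  have h3 : ((Rep.coind S.subtype B).ρ g f.1).1 1 = (f.1).1 (1 * g) := rfl
  rw [one_mul] at h3
  rw [← h3]
  exact h2

theorem shapiroMap_zero_injective (B : Rep k S) :
    Function.Injective (shapiroMap S B 0).hom := by
  rw [injective_iff_map_eq_zero]
  intro x hx
  have h1 := H0Iso_hom_shapiroMap_val S B x
  rw [hx, map_zero] at h1
  have h2 : (H0Iso (Rep.coind S.subtype B)).hom x = 0 := by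
    apply Subtype.ext
    apply Subtype.ext
    funext g
    rw [invariant_coind_apply S B _ g]
    exact h1.symm
  have h3 := congrArg (H0Iso (Rep.coind S.subtype B)).inv h2
  simpa using h3

theorem shapiroMap_zero_surjective (B : Rep k S) :
    Function.Surjective (shapiroMap S B 0).hom := by
  intro z
  set b := (H0Iso B).hom z with hb
  have hbinv : ∀ s : S, B.ρ s b.1 = b.1 := fun s => b.2 s
  let f : (Rep.coind S.subtype B).V := ⟨fun _ => b.1, fun s g => (hbinv s).symm⟩
  have hf : f ∈ (Rep.coind S.subtype B).ρ.invariants := by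
    intro g
    apply Subtype.ext
    funext x
    rfl
  refine ⟨(H0Iso (Rep.coind S.subtype B)).inv ⟨f, hf⟩, ?_⟩
  have h1 := H0Iso_hom_shapiroMap_val S B ((H0Iso (Rep.coind S.subtype B)).inv ⟨f, hf⟩)
  have h2 : (H0Iso B).hom ((shapiroMap S B 0).hom
      ((H0Iso (Rep.coind S.subtype B)).inv ⟨f, hf⟩)) = (H0Iso B).hom z := by
    apply Subtype.ext
    rw [h1]
    simp [f, hb]
  have h3 := congrArg (H0Iso B).inv h2
  simpa using h3

/-! ### Naturality of `ev1` -/

lemma ev1_naturality {B B' : Rep k S} (φ : B ⟶ B') :
    (Rep.resFunctor S.subtype).map (Rep.coindMap S.subtype φ) ≫ ev1 S B' = ev1 S B ≫ φ := by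
  ext f
  rfl

/-! ### Coinduction of the module of all functions -/

/-- `Coind_S^G (S → V) ≅ (G → V)`. -/
noncomputable def coindFunRepIso (V : Type u) [AddCommGroup V] [Module k V] :
    Rep.coind S.subtype (funRep k S V) ≅ funRep k G V :=
  Rep.mkIso (ρ := Representation.coind S.subtype (funRho k S V)) (σ := funRho k G V)
    { toLinearEquiv :=
        { toFun := fun F x => F.1 x 1
          invFun := fun φ => ⟨fun x t => φ (t * x), fun s x => by
            funext t
            simp [mul_assoc]⟩
          map_add' := fun _ _ => rfl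
          map_smul' := fun _ _ => rfl
          left_inv := fun F => by
            apply Subtype.ext
            funext x t
            have h := congrFun (F.2 t x) 1
            simpa using h
          right_inv := fun φ => by
            funext x
            simp }
      isIntertwining' := fun g => by
        ext F x
        rfl }

theorem isZero_coind_funRep (V : Type u) [AddCommGroup V] [Module k V] (n : ℕ) :
    IsZero (groupCohomology (Rep.coind S.subtype (funRep k S V)) (n + 1)) :=
  (isZero_funRep (k := k) (G := G) V n).of_iso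
    ((groupCohomology.functor k G (n + 1)).mapIso (coindFunRepIso S V))

/-! ### The coinduced dimension-shifting sequence -/

/-- The coinduction of the dimension shifting sequence of `B`. -/
noncomputable def coindSC (B : Rep k S) : ShortComplex (Rep k G) :=
  (shiftSC B).map (Rep.coindFunctor k S.subtype)

lemma coindSC_shortExact (B : Rep k S) : (coindSC S B).ShortExact where
  exact := by
    rw [← ShortComplex.exact_map_iff_of_faithful _ (forget₂ (Rep k G) (ModuleCat k)),
      ShortComplex.moduleCat_exact_iff_ker_sub_range]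
    intro F hF
    have hF' : ∀ x : G, (shiftProj B).hom (F.1 x) = 0 := by
      intro x
      have := congrArg (fun F' : (Rep.coind S.subtype (shiftRep B)).V => F'.1 x) hF
      exact this
    have hmem : ∀ x : G, ∃ b : B.V, (shiftIncl B).hom b = F.1 x := by
      intro x
      have h1 := (shiftProj_eq_zero_iff B (F.1 x)).1 (hF' x)
      obtain ⟨b, hb⟩ := h1
      exact ⟨b, hb⟩
    choose F' hF'' using hmem
    refine ⟨⟨F', fun s x => ?_⟩, ?_⟩
    · apply shiftIncl_injective B
      rw [hF'']
      have h2 := F.2 s x
      rw [h2, ← hF'' x]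
      exact (Rep.hom_comm_apply (shiftIncl B) s (F' x)).symm
    · apply Subtype.ext
      funext x
      exact hF'' x
  mono_f := by
    rw [Rep.mono_iff_injective]
    intro F₁ F₂ h
    apply Subtype.ext
    funext x
    apply shiftIncl_injective B
    have := congrArg (fun F' : (Rep.coind S.subtype (funRep k S B.V)).V => F'.1 x) h
    exact this
  epi_g := by
    have : Epi (shiftSC B).g := (shiftSC_shortExact B).epi_g
    exact inferInstanceAs (Epi ((Rep.coindFunctor k S.subtype).map (shiftSC B).g))

/-- The comparison morphism from the restricted coinduced sequence to the shifting sequence,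
given by evaluation at `1`. -/
noncomputable def evSC (B : Rep k S) :
    (coindSC S B).map (Rep.resFunctor S.subtype) ⟶ shiftSC B where
  τ₁ := ev1 S B
  τ₂ := ev1 S (funRep k S B.V)
  τ₃ := ev1 S (shiftRep B)
  comm₁₂ := ev1_naturality S (shiftIncl B)
  comm₂₃ := ev1_naturality S (shiftProj B)

/-- Change of groups commutes with the maps induced by `X.g`. -/
lemma map_comm_g {G₁ G₂ : Type u} [Group G₁] [Group G₂] (f : G₁ →* G₂)
    {X₂ : ShortComplex (Rep k G₂)} {X₁ : ShortComplex (Rep k G₁)}
    (Φ : X₂.map (Rep.resFunctor f) ⟶ X₁) (n : ℕ) :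
    groupCohomology.map (MonoidHom.id G₂) X₂.g n ≫ groupCohomology.map f Φ.τ₃ n =
      groupCohomology.map f Φ.τ₂ n ≫ groupCohomology.map (MonoidHom.id G₁) X₁.g n := by
  have h := (cochainsMapSC f Φ).comm₂₃
  have h2 := congrArg (fun ψ => HomologicalComplex.homologyMap ψ n) h
  simp only [HomologicalComplex.homologyMap_comp] at h2
  exact h2.symm

/-- **Explicit Shapiro lemma**: restriction to `S` followed by evaluation at `1` is bijective
`Hⁿ(G, Coind_S^G B) → Hⁿ(S, B)` for all `n`. -/
theorem shapiroMap_bijective : ∀ (n : ℕ) (B : Rep k S),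
    Function.Bijective (shapiroMap S B n).hom := by
  intro n
  induction n with
  | zero => exact fun B => ⟨shapiroMap_zero_injective S B, shapiroMap_zero_surjective S B⟩
  | succ n ih =>
    intro B
    have hnat := δ_naturality_map S.subtype (coindSC_shortExact S B) (shiftSC_shortExact B)
      (evSC S B) n (n + 1) rfl
    have hnat' : ∀ z, (shapiroMap S B (n + 1)).hom
        ((δ (coindSC_shortExact S B) n (n + 1) rfl).hom z) =
        (shiftδ B n).hom ((shapiroMap S (shiftRep B) n).hom z) := fun z =>
      congrArg (fun ψ => ψ.hom z) hnat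
    have hepi₂ : Function.Surjective (δ (coindSC_shortExact S B) n (n + 1) rfl).hom :=
      (ModuleCat.epi_iff_surjective _).1
        (epi_δ_of_isZero (coindSC_shortExact S B) n (isZero_coind_funRep S B.V n))
    constructor
    · rw [injective_iff_map_eq_zero]
      intro x hx
      obtain ⟨z', rfl⟩ := hepi₂ x
      rw [hnat'] at hx
      -- `Θ z'` is in the kernel of `δ₁`, hence in the image of `Hⁿ(π)`
      have hex := (mapShortComplex₃_exact (shiftSC_shortExact B) (rfl : n + 1 = n + 1))
      rw [ShortComplex.moduleCat_exact_iff] at hex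
      obtain ⟨w, hw⟩ := hex _ hx
      obtain ⟨w', rfl⟩ := (ih (funRep k S B.V)).2 w
      have hcomm := map_comm_g S.subtype (evSC S B) n
      have hcomm' : (shapiroMap S (shiftRep B) n).hom
          ((groupCohomology.map (MonoidHom.id G) (coindSC S B).g n).hom w') =
          (groupCohomology.map (MonoidHom.id S) (shiftSC B).g n).hom
            ((shapiroMap S (funRep k S B.V) n).hom w') :=
        congrArg (fun ψ => ψ.hom w') hcomm
      have hz : (groupCohomology.map (MonoidHom.id G) (coindSC S B).g n).hom w' = z' :=
        (ih (shiftRep B)).1 (hcomm'.trans hw)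
      have hzero := (mapShortComplex₃ (coindSC_shortExact S B) (rfl : n + 1 = n + 1)).zero
      have hzero' := congrArg (fun ψ => ψ.hom w') hzero
      have hgoal : (δ (coindSC_shortExact S B) n (n + 1) rfl).hom
          ((groupCohomology.map (MonoidHom.id G) (coindSC S B).g n).hom w') = 0 := hzero'
      rw [hz] at hgoal
      exact hgoal
    · intro y
      obtain ⟨z, rfl⟩ := shiftδ_surjective B n y
      obtain ⟨z', rfl⟩ := (ih (shiftRep B)).2 z
      exact ⟨_, hnat' z'⟩

/-- The explicit Shapiro map is an isomorphism. -/
theorem isIso_shapiroMap (B : Rep k S) (n : ℕ) : IsIso (shapiroMap S B n) :=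
  (ConcreteCategory.isIso_iff_bijective _).2 (shapiroMap_bijective S n B)

end Fermat.Agent.S55.H173
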